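import Mathlib
import Fermat.Agent.ESJ.Jac.Defs
import Fermat.Agent.S24.Counting
import Fermat.Agent.S24.Ramif

/-!
# ESJ / JAC-DICT: the analytic dictionary as one structure

`IsDict ι N` bundles the facts about the function field `F_K = K(j(q^d) : d ∣ N)` and its
analytic avatar (`merK`, `valPtK`, `valCuspK` of `ESJ/Jac/Defs.lean`) that the Kummer theory on
the upper half plane consumes.  It is proved for the two coefficient fields that are needed:
`K = ℚ̄`, `ι = iotaK` (from S24) and `K = ℂ`, `ι = id` (from the port S24C).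
Statements for a general `(K, ι)` take `(hD : IsDict ι N)` as a hypothesis.
-/

set_option autoImplicit false

open UpperHalfPlane ModularForm AlgebraicCurve CongruenceSubgroup
open scoped MatrixGroups Manifold IntermediateField

noncomputable section

namespace Fermat.Agent.ESJ.Dict

open Fermat.Agent.S24 Fermat.Agent.ESJ.Jac

/-- Elliptic type of a point for `Γ₀(N)` (`= S24.Ramif.EllType`): `e` is the order of the
stabiliser of `τ` in `Γ₀(N) / ±1`, with an explicit elliptic element when `e ≠ 1`. -/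
abbrev EllType (N : ℕ) (τ : ℍ) (e : ℕ) : Prop := Fermat.Agent.S24.Ramif.EllType N τ e

/-- The analytic dictionary for the coefficient field `K` with embedding `ι : K →+* ℂ`. -/
structure IsDict {K : Type} [Field K] [Algebra ℚ K] (ι : K →+* ℂ) (N : ℕ) [NeZero N] : Prop where
  /-- every element is a quotient of polynomial expressions in the `j(q^d)` -/
  exists_isRepK : ∀ f : FNK K N, ∃ P Q, IsRepK N f P Q
  /-- formal identities are analytic identities -/
  fmK_eq_zero_iff : ∀ P : MvPolynomial (Dv N) K, fmK K N P = 0 ↔ evK ι N P = 0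
  mdiff_evK : ∀ P : MvPolynomial (Dv N) K, MDiff (evK ι N P)
  evK_smul_Gamma0 : ∀ (P : MvPolynomial (Dv N) K) (γ : SL(2, ℤ)), γ ∈ Gamma0 N → ∀ z : ℍ,
    evK ι N P (γ • z) = evK ι N P z
  /-- the point valuation on any representative -/
  valPtK_eq_of_isRepK : ∀ (τ : ℍ) (f : FNK K N) (P Q : MvPolynomial (Dv N) K),
    IsRepK N f P Q → f ≠ 0 → valPtK ι N τ f = ordAt (evK ι N P) τ - ordAt (evK ι N Q) τ
  /-- the cusp valuation on any representative -/
  valCuspK_eq_of_isRepK : ∀ (g : SL(2, ℤ)) (f : FNK K N) (P Q : MvPolynomial (Dv N) K),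
    IsRepK N f P Q → f ≠ 0 →
      valCuspK ι N g f = ordInf N (trans g (evK ι N P)) - ordInf N (trans g (evK ι N Q))
  /-- off a discrete subset of `U`, `merK` is `ev P / ev Q` for ANY representative -/
  merK_eq_div_ae : ∀ (f : FNK K N) (P Q : MvPolynomial (Dv N) K), IsRepK N f P Q →
    merK ι N f =ᶠ[Filter.codiscreteWithin U]
      fun z => evK ι N P (ofComplex z) / evK ι N Q (ofComplex z)
  /-- the point valuations are raw valuations -/
  isRawVal_valPtK : ∀ τ : ℍ, Counting.IsRawVal K (valPtK ι N τ)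
  /-- the cusp valuations are raw valuations -/
  isRawVal_valCuspK : ∀ g : SL(2, ℤ), Counting.IsRawVal K (valCuspK ι N g)
  meromorphicOn_merK : ∀ f : FNK K N, MeromorphicOn (merK ι N f) U
  meromorphicOrderAt_merK : ∀ f : FNK K N, f ≠ 0 → ∀ τ : ℍ,
    meromorphicOrderAt (merK ι N f) (τ : ℂ) = ((valPtK ι N τ f : ℤ) : WithTop ℤ)
  merK_mob : ∀ (f : FNK K N) (γ : SL(2, ℤ)), γ ∈ Gamma0 N → ∀ z ∈ U,
    merK ι N f (mob γ z) = merK ι N f z
  merK_mul : ∀ f g : FNK K N, merK ι N (f * g) =ᶠ[Filter.codiscreteWithin U]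
    fun z => merK ι N f z * merK ι N g z
  merK_add : ∀ f g : FNK K N, merK ι N (f + g) =ᶠ[Filter.codiscreteWithin U]
    fun z => merK ι N f z + merK ι N g z
  merK_algebraMap : ∀ c : K, merK ι N (algebraMap K (FNK K N) c)
    =ᶠ[Filter.codiscreteWithin U] fun _ => ι c
  merK_eq_zero_iff : ∀ f : FNK K N,
    merK ι N f =ᶠ[Filter.codiscreteWithin U] (fun _ => (0 : ℂ)) ↔ f = 0
  /-- local shape at the cusp `g⁻¹ ∞` (S24 convention: `valCuspK ι N g` is the order of
  `f ∘ g⁻¹` at `i∞` in `q_N = exp (2 π i z / N)`) -/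
  merK_cusp_shape : ∀ f : FNK K N, f ≠ 0 → ∀ g : SL(2, ℤ),
    ∃ ψ : ℂ → ℂ, AnalyticAt ℂ ψ 0 ∧ ψ 0 ≠ 0 ∧ ∀ z : ℂ, z ∈ U →
      merK ι N f (mob g⁻¹ z) = Function.Periodic.qParam (N : ℝ) z ^ (valCuspK ι N g f) *
        ψ (Function.Periodic.qParam (N : ℝ) z)
  merAtCusps_merK : ∀ f : FNK K N, MerAtCusps (merK ι N f)
  transcendental_jBarK : Transcendental K (jBarK K N)
  finiteDimensional_jBarK : FiniteDimensional K⟮jBarK K N⟯ (FNK K N)
  finrank_jBarK : Module.finrank K⟮jBarK K N⟯ (FNK K N) = Nat.card (XN N)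
  hasPrincipalDivisors : HasPrincipalDivisors K (FNK K N)
  /-- elliptic points: the elliptic order divides all point valuations -/
  ellType_dvd_valPtK : ∀ (τ : ℍ) (e : ℕ), EllType N τ e → ∀ f : FNK K N, f ≠ 0 →
    (e : ℤ) ∣ valPtK ι N τ f
  /-- cusps: width divisibility -/
  dvd_valCuspK_mul : ∀ (g : SL(2, ℤ)) (w : ℕ), 0 < w →
    g⁻¹ * ModularGroup.T ^ w * g ∈ Gamma0 N → ∀ f : FNK K N, f ≠ 0 →
    (N : ℤ) ∣ valCuspK ι N g f * w
  /-- every place is a point place or a cusp place, with EXACT index -/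
  place_cases : ∀ v : Place K (FNK K N),
    (∃ (τ : ℍ) (e : ℕ), EllType N τ e ∧ ∀ f : FNK K N, f ≠ 0 → valPtK ι N τ f = e * v.ord f) ∨
    (∃ (g : SL(2, ℤ)) (e w : ℕ), 0 < w ∧ e * w = N ∧
      g⁻¹ * ModularGroup.T ^ w * g ∈ Gamma0 N ∧
      ∀ f : FNK K N, f ≠ 0 → valCuspK ι N g f = e * v.ord f)
  /-- Kummer form: `n` divides all orders of `f` iff the point orders are divisible by `n * e`
  and the cusp orders (in `q_N`) by `n * (N / w)` -/
  forall_dvd_ord_iff : ∀ (n : ℕ) (f : FNK K N), f ≠ 0 →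
    ((∀ v : Place K (FNK K N), (n : ℤ) ∣ v.ord f) ↔
      (∀ (τ : ℍ) (e : ℕ), EllType N τ e → ((n * e : ℕ) : ℤ) ∣ valPtK ι N τ f) ∧
      (∀ (g : SL(2, ℤ)) (w : ℕ), 0 < w → w ∣ N →
        g⁻¹ * ModularGroup.T ^ w * g ∈ Gamma0 N →
        ((n * (N / w) : ℕ) : ℤ) ∣ valCuspK ι N g f))

end Fermat.Agent.ESJ.Dict
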