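import Mathlib
import Fermat.Agent.ESJ.Jac.Defs
import Fermat.Agent.S24.CuspHom
import Fermat.Agent.S24.ValPt
import Fermat.Agent.Lib.LaurentDescent

/-!
# ESJ / JAC-DICT-BC: base change of the analytic dictionary

All auxiliary (generic) statements of Parts 1 and 2 live in the namespace
`Fermat.Agent.ESJ.Dict.Bc`; the base change itself (Part 3) in `Fermat.Agent.ESJ.Dict`.

Part 1 (pure algebra, any `ι : K →+* L`, any `F₀`): coefficientwise application of `ι` is a ring
homomorphism `bcK ι F₀ : K·F₀ → L·F₀` between the base-changed fields of Laurent series; it is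
injective, compatible with constants, and its image consists exactly of the elements all of whose
coefficients lie in the range of `ι`.

Part 2 (any coefficient field `K` with an embedding `ι : K →+* ℂ`): the `q`-expansion bridge
`evK ι N P = 0 ↔ fmK K N P = 0`, existence of representatives, and independence of
`valPtK`, `valCuspK`, `merK` of the chosen representative (the facts S24 proves for `K = ℚ̄`).

Part 3: the base change `bcC ι N : F_K → F_ℂ` (`bc N` for `K = ℚ̄`) and its compatibility with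
`fmK`, `valPtK`, `valCuspK`, `merK`.
-/

set_option autoImplicit false
set_option linter.unusedSectionVars false

open UpperHalfPlane ModularForm CongruenceSubgroup Filter
open scoped MatrixGroups Manifold Topology

noncomputable section

namespace Fermat.Agent.ESJ.Dict

open ModularCurve Fermat.Agent.S24 Fermat.Agent.ESJ.Jac

namespace Bc

/-! ## Part 1: coefficientwise base change of `laurentBaseChange` -/

section Algebra

variable {K L : Type*} [Field K] [Field L] [Algebra ℚ K] [Algebra ℚ L]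

theorem coeffMap_coeffEmb_of_ringHom (ι : K →+* L) (z : LaurentSeries ℚ) :
    coeffMap ι (coeffEmb K z) = coeffEmb L z := by
  rw [coeffEmb, coeffEmb, coeffMap_coeffMap]
  exact coeffMap_congr (RingHom.ext_rat _ _) z

omit [Algebra ℚ K] [Algebra ℚ L] in
theorem coeffMap_algebraMap_of_ringHom (ι : K →+* L) (c : K) :
    coeffMap ι (algebraMap K (LaurentSeries K) c) = algebraMap L (LaurentSeries L) (ι c) := by
  rw [algebraMap_laurentSeries_eq_single, coeffMap_single, algebraMap_laurentSeries_eq_single]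

/-- Coefficientwise application of a ring homomorphism maps `K·F₀` into `L·F₀`. -/
theorem coeffMap_mem_laurentBaseChange_of_ringHom (ι : K →+* L)
    (F₀ : IntermediateField ℚ (LaurentSeries ℚ)) {x : LaurentSeries K}
    (hx : x ∈ laurentBaseChange K F₀) : coeffMap ι x ∈ laurentBaseChange L F₀ := by
  rw [mem_laurentBaseChange_iff] at hx
  induction hx using Subfield.closure_induction with
  | mem y hy =>
      rcases hy with ⟨a, rfl⟩ | ⟨z, hz, rfl⟩
      · rw [coeffMap_algebraMap_of_ringHom]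
        exact (laurentBaseChange L F₀).algebraMap_mem _
      · rw [coeffMap_coeffEmb_of_ringHom]
        exact coeffEmb_mem_laurentBaseChange L hz
  | one => simp
  | add x y _ _ hx hy => simpa using add_mem hx hy
  | neg x _ hx => simpa using neg_mem hx
  | inv x _ hx => simpa using inv_mem hx
  | mul x y _ _ hx hy => simpa using mul_mem hx hy

/-- **Base change** `K·F₀ → L·F₀` along `ι : K →+* L` (coefficientwise). -/
def bcK (ι : K →+* L) (F₀ : IntermediateField ℚ (LaurentSeries ℚ)) :
    ↥(laurentBaseChange K F₀) →+* ↥(laurentBaseChange L F₀) where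
  toFun x := ⟨coeffMap ι x.1, coeffMap_mem_laurentBaseChange_of_ringHom ι F₀ x.2⟩
  map_one' := Subtype.ext (map_one (coeffMap ι))
  map_mul' x y := Subtype.ext (map_mul (coeffMap ι) x.1 y.1)
  map_zero' := Subtype.ext (map_zero (coeffMap ι))
  map_add' x y := Subtype.ext (map_add (coeffMap ι) x.1 y.1)

@[simp]
theorem coe_bcK (ι : K →+* L) (F₀ : IntermediateField ℚ (LaurentSeries ℚ))
    (x : ↥(laurentBaseChange K F₀)) :
    ((bcK ι F₀ x : ↥(laurentBaseChange L F₀)) : LaurentSeries L)
      = coeffMap ι (x : LaurentSeries K) := rfl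

theorem bcK_injective (ι : K →+* L) (F₀ : IntermediateField ℚ (LaurentSeries ℚ)) :
    Function.Injective (bcK ι F₀) := (bcK ι F₀).injective

theorem bcK_algebraMap (ι : K →+* L) (F₀ : IntermediateField ℚ (LaurentSeries ℚ)) (c : K) :
    bcK ι F₀ (algebraMap K ↥(laurentBaseChange K F₀) c)
      = algebraMap L ↥(laurentBaseChange L F₀) (ι c) :=
  Subtype.ext (coeffMap_algebraMap_of_ringHom ι c)

omit [Algebra ℚ K] [Algebra ℚ L] in
/-- A Laurent series all of whose coefficients lie in the range of `ι` is `coeffMap ι` of a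
Laurent series. -/
theorem exists_coeffMap_eq_of_coeff_mem_range (ι : K →+* L) (x : LaurentSeries L)
    (h : ∀ k : ℤ, x.coeff k ∈ Set.range ι) : ∃ y : LaurentSeries K, coeffMap ι y = x := by
  choose c hc using h
  refine ⟨⟨c, x.isPWO_support.mono ?_⟩, ?_⟩
  · intro k hk
    simp only [Function.mem_support, ne_eq] at hk
    rw [HahnSeries.mem_support, ← hc k]
    intro h0
    exact hk ((map_eq_zero ι).mp h0)
  · ext k
    rw [coeffMap_coeff]
    exact hc k

/-- **Range of the base change**: an element of `L·F₀` all of whose coefficients lie in `ι(K)`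
comes from `K·F₀` (linear disjointness, `Lib/LaurentDescent`). -/
theorem mem_range_bcK (ι : K →+* L) (F₀ : IntermediateField ℚ (LaurentSeries ℚ))
    (x : ↥(laurentBaseChange L F₀))
    (h : ∀ k : ℤ, (x : LaurentSeries L).coeff k ∈ Set.range ι) : x ∈ Set.range (bcK ι F₀) := by
  obtain ⟨y, hy⟩ := exists_coeffMap_eq_of_coeff_mem_range ι (x : LaurentSeries L) h
  have hmem : y ∈ laurentBaseChange K F₀ :=
    Fermat.Agent.Lib.LaurentDescent.mem_laurentBaseChange_of_coeffMap_mem ι F₀ y
      (by rw [hy]; exact x.2)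
  exact ⟨⟨y, hmem⟩, Subtype.ext hy⟩

theorem mem_range_bcK_iff (ι : K →+* L) (F₀ : IntermediateField ℚ (LaurentSeries ℚ))
    (x : ↥(laurentBaseChange L F₀)) :
    x ∈ Set.range (bcK ι F₀) ↔ ∀ k : ℤ, (x : LaurentSeries L).coeff k ∈ Set.range ι := by
  refine ⟨?_, mem_range_bcK ι F₀ x⟩
  rintro ⟨y, rfl⟩ k
  exact ⟨(y : LaurentSeries K).coeff k, rfl⟩

end Algebra

/-! ## Part 2: the dictionary facts for a general coefficient field `(K, ι)` -/

section Generic

variable {K : Type} [Field K] [Algebra ℚ K] (ι : K →+* ℂ) (N : ℕ) [NeZero N]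

/-- The formal generators as Laurent series. -/
def jLK (K : Type) [Field K] [Algebra ℚ K] (N : ℕ) [NeZero N] (d : Dv N) : LaurentSeries K :=
  (jFormalK K N d : LaurentSeries K)

omit ι in
theorem coe_fmK (P : MvPolynomial (Dv N) K) :
    ((fmK K N P : FNK K N) : LaurentSeries K) = MvPolynomial.aeval (jLK K N) P := by
  have h := AlgHom.congr_fun
    (MvPolynomial.comp_aeval (jFormalK K N)
      (laurentBaseChange K (modularFunctionFieldFull N)).val) P
  exact h

theorem coeffMap_jLK (d : Dv N) :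
    haveI : NeZero d.1 := d.neZero
    coeffMap ι (jLK K N d) = qExpand ℂ d.1 (coeffMap (algebraMap ℚ ℂ) jq) := by
  have : NeZero d.1 := d.neZero
  show coeffMap ι (coeffEmb K (qExpand ℚ d.1 jq)) = _
  rw [coeffEmb, coeffMap_coeffMap, coeffMap_qExpand]
  congr 1
  exact coeffMap_congr (RingHom.ext_rat _ _) _

/-- The analytic evaluation `evK ι N P` has the formal evaluation `fmK K N P` as
`q`-expansion. -/
theorem hasQExp_evK (P : MvPolynomial (Dv N) K) :
    QExp.HasQExp 1 (evK ι N P) (coeffMap ι ((fmK K N P : FNK K N) : LaurentSeries K)) := by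
  rw [coe_fmK]
  refine QExp.HasQExp.mvPolynomial ι (fun d : Dv N => Jabd d.1 0 1) _ (fun d => ?_) P
  have : NeZero d.1 := d.neZero
  rw [coeffMap_jLK]
  exact QExp.hasQExp_Jabd_scale d.1

/-- **Bridge (q-expansion principle)** over `(K, ι)`. -/
theorem evK_eq_zero_iff (P : MvPolynomial (Dv N) K) : evK ι N P = 0 ↔ fmK K N P = 0 := by
  have key := (hasQExp_evK ι N P).eq_zero_iff
  constructor
  · intro h0
    have := key.mp (fun τ => by rw [h0]; rfl)
    have h2 : ((fmK K N P : FNK K N) : LaurentSeries K) = 0 :=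
      QExp.coeffMap_injective' ι (by rw [this, map_zero])
    exact Subtype.ext h2
  · intro h0
    funext τ
    exact key.mpr (by rw [h0]; simp) τ

theorem evK_ne_zero_iff (P : MvPolynomial (Dv N) K) : evK ι N P ≠ 0 ↔ fmK K N P ≠ 0 :=
  (evK_eq_zero_iff ι N P).not

/-- `evK ι N P` is holomorphic on `ℍ`. -/
theorem mdiff_evK (P : MvPolynomial (Dv N) K) : MDiff (evK ι N P) :=
  (QLaurent.mem_MerInf_of_hasSum (h := 1) (hasQExp_evK ι N P)).1

omit [NeZero N] [Algebra ℚ K] in
theorem evK_C (a : K) : evK ι N (MvPolynomial.C a) = fun _ => ι a := by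
  funext z
  simp [evK]

omit [NeZero N] [Algebra ℚ K] in
theorem evK_X (d : Dv N) : evK ι N (MvPolynomial.X d) = Jabd d.1 0 1 := by
  simp [evK]

omit [NeZero N] [Algebra ℚ K] in
/-- `evK` of a polynomial is `evK id` of the polynomial with coefficients mapped to `ℂ`. -/
theorem evK_map (P : MvPolynomial (Dv N) K) :
    evK (RingHom.id ℂ) N (MvPolynomial.map ι P) = evK ι N P := by
  induction P using MvPolynomial.induction_on with
  | C c =>
    rw [MvPolynomial.map_C, evK_C, evK_C]
    rfl
  | add p q hp hq =>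
    rw [map_add, map_add, map_add, hp, hq]
  | mul_X p i hp =>
    rw [map_mul, map_mul, map_mul, hp, MvPolynomial.map_X, evK_X, evK_X]

/-! ### Representatives -/

omit ι in
theorem laurentBaseChange_le_adjoin_jLK :
    (laurentBaseChange K (modularFunctionFieldFull N) : IntermediateField K (LaurentSeries K)) ≤
      IntermediateField.adjoin K (Set.range (jLK K N)) := by
  rw [laurentBaseChange, IntermediateField.adjoin_le_iff]
  rintro _ ⟨x, hx, rfl⟩
  set F' := IntermediateField.adjoin K (Set.range (jLK K N)) with hF'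
  let T : Subfield (LaurentSeries ℚ) := Subfield.comap (coeffEmb K) F'.toSubfield
  have hT : (modularFunctionFieldFull N).toSubfield ≤ T := by
    rw [modularFunctionFieldFull, IntermediateField.adjoin_toSubfield, Subfield.closure_le]
    rintro y (⟨c, rfl⟩ | ⟨d, hd, hdN, rfl⟩)
    · show coeffEmb K (algebraMap ℚ (LaurentSeries ℚ) c) ∈ F'.toSubfield
      rw [eq_ratCast, map_ratCast]
      exact SubfieldClass.ratCast_mem _ c
    · show coeffEmb K (qExpand ℚ d jq) ∈ F'
      exact IntermediateField.subset_adjoin K _ ⟨⟨d, hdN⟩, rfl⟩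
  exact hT hx

omit ι in
/-- **Representatives**: every element of `F_K` is `fmK P / fmK Q`. -/
theorem exists_isRepK (f : FNK K N) : ∃ P Q, IsRepK N f P Q := by
  have hf := laurentBaseChange_le_adjoin_jLK N f.2
  rw [IntermediateField.mem_adjoin_range_iff] at hf
  obtain ⟨r, s, hrs⟩ := hf
  by_cases hs : MvPolynomial.aeval (jLK K N) s = 0
  · refine ⟨0, 1, by simp, ?_⟩
    apply Subtype.ext
    rw [hrs, hs, div_zero]
    simp
  · refine ⟨r, s, ?_, ?_⟩
    · intro h
      apply hs
      rw [← coe_fmK, h]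
      rfl
    · apply Subtype.ext
      rw [hrs, IntermediateField.coe_div, coe_fmK, coe_fmK]

omit ι in
theorem fmK_ne_zero_of_isRepK {f : FNK K N} {P Q : MvPolynomial (Dv N) K} (h : IsRepK N f P Q)
    (hf : f ≠ 0) : fmK K N P ≠ 0 := by
  intro h0
  apply hf
  rw [h.2, h0, zero_div]

/-- Two representatives of the same element give proportional pairs of functions. -/
theorem evK_mul_eq_of_isRepK {f : FNK K N} {P Q P' Q' : MvPolynomial (Dv N) K}
    (h : IsRepK N f P Q) (h' : IsRepK N f P' Q') :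
    evK ι N P * evK ι N Q' = evK ι N P' * evK ι N Q := by
  obtain ⟨hQ, hfPQ⟩ := h
  obtain ⟨hQ', hfPQ'⟩ := h'
  have hcross : fmK K N P * fmK K N Q' = fmK K N P' * fmK K N Q := by
    have := hfPQ.symm.trans hfPQ'
    rw [div_eq_div_iff hQ hQ'] at this
    exact this
  have h0 : fmK K N (P * Q' - P' * Q) = 0 := by
    rw [map_sub, map_mul, map_mul, hcross, sub_self]
  have h1 := (evK_eq_zero_iff ι N _).2 h0
  rw [map_sub, map_mul, map_mul, sub_eq_zero] at h1
  exact h1

/-! ### Point valuations -/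

/-- Independence of the representative (points). -/
theorem ordAt_sub_eq_of_isRepK (τ : ℍ) {f : FNK K N} (hf : f ≠ 0)
    {P Q P' Q' : MvPolynomial (Dv N) K} (h : IsRepK N f P Q) (h' : IsRepK N f P' Q') :
    ordAt (evK ι N P) τ - ordAt (evK ι N Q) τ = ordAt (evK ι N P') τ - ordAt (evK ι N Q') τ := by
  have hev := evK_mul_eq_of_isRepK ι N h h'
  have e1 := ValPt.ordAt_mul (mdiff_evK ι N P) (mdiff_evK ι N Q')
    ((evK_ne_zero_iff ι N P).2 (fmK_ne_zero_of_isRepK N h hf)) ((evK_ne_zero_iff ι N Q').2 h'.1) τ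
  have e2 := ValPt.ordAt_mul (mdiff_evK ι N P') (mdiff_evK ι N Q)
    ((evK_ne_zero_iff ι N P').2 (fmK_ne_zero_of_isRepK N h' hf)) ((evK_ne_zero_iff ι N Q).2 h.1) τ
  rw [hev] at e1
  linarith

/-- **The point valuation can be computed on any representative** (for `f ≠ 0`). -/
theorem valPtK_eq_of_isRepK (τ : ℍ) {f : FNK K N} (hf : f ≠ 0) {P Q : MvPolynomial (Dv N) K}
    (h : IsRepK N f P Q) :
    valPtK ι N τ f = ordAt (evK ι N P) τ - ordAt (evK ι N Q) τ := by
  have hex : ∃ P Q, IsRepK N f P Q := ⟨P, Q, h⟩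
  unfold valPtK
  rw [dif_pos hex]
  exact ordAt_sub_eq_of_isRepK ι N τ hf hex.choose_spec.choose_spec h

/-! ### Cusp valuations -/

omit ι in
theorem fmK_cross_eq_zero {f : FNK K N} {P Q P' Q' : MvPolynomial (Dv N) K}
    (h : IsRepK N f P Q) (h' : IsRepK N f P' Q') : fmK K N (P * Q' - P' * Q) = 0 := by
  obtain ⟨hQ, hfPQ⟩ := h
  obtain ⟨hQ', hfPQ'⟩ := h'
  have hcross : fmK K N P * fmK K N Q' = fmK K N P' * fmK K N Q := by
    have := hfPQ.symm.trans hfPQ'
    rw [div_eq_div_iff hQ hQ'] at this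
    exact this
  rw [map_sub, map_mul, map_mul, hcross, sub_self]

/-- Evaluation of a polynomial in the generators at the `q_N`-expansions of the generators at the
cusp `g⁻¹∞` (coefficients through `ι`). -/
def cuspPolyK (g : SL(2, ℤ)) : MvPolynomial (Dv N) K →+* LaurentSeries ℂ :=
  MvPolynomial.eval₂Hom ((algebraMap ℂ (LaurentSeries ℂ)).comp ι)
    (fun d : Dv N => coeffMap iotaK (QExp.cuspSeries N g d))

/-- **Cusp expansion of `(evK ι N P) ∘ g⁻¹`** in `q_N`. -/
theorem hasQExp_trans_evK (g : SL(2, ℤ)) (P : MvPolynomial (Dv N) K) :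
    QExp.HasQExp N (trans g (evK ι N P)) (cuspPolyK ι N g P) := by
  induction P using MvPolynomial.induction_on with
  | C a =>
    have h1 : trans g (evK ι N (MvPolynomial.C a)) = fun _ => ι a := by
      rw [evK_C]
      rfl
    have h2 : cuspPolyK ι N g (MvPolynomial.C a) = HahnSeries.C (ι a) := by
      simp [cuspPolyK, algebraMap_laurentSeries_eq_single]
    rw [h1, h2]
    exact QExp.HasQExp.const N (ι a)
  | add p q hp hq =>
    rw [map_add, map_add]
    exact hp.add hq
  | mul_X p d hp =>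
    rw [map_mul, map_mul, evK_X]
    have h2 : cuspPolyK ι N g (MvPolynomial.X d) = coeffMap iotaK (QExp.cuspSeries N g d) := by
      simp [cuspPolyK]
    rw [h2]
    exact hp.mul (QExp.hasQExp_cuspSeries N g d)

theorem cuspPolyK_eq_zero_iff (g : SL(2, ℤ)) (P : MvPolynomial (Dv N) K) :
    cuspPolyK ι N g P = 0 ↔ fmK K N P = 0 := by
  rw [← evK_eq_zero_iff ι, ← QExp.trans_eq_zero_iff g]
  have key := (hasQExp_trans_evK ι N g P).eq_zero_iff
  constructor
  · intro h0
    funext z
    exact key.mpr h0 z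
  · intro h0
    exact key.mp (fun z => by rw [h0]; rfl)

/-- `ordInf` of a translate of `evK ι N P` is the order of its cusp expansion. -/
theorem ordInf_trans_evK (g : SL(2, ℤ)) (P : MvPolynomial (Dv N) K) (hP : fmK K N P ≠ 0) :
    ordInf N (trans g (evK ι N P)) = (cuspPolyK ι N g P).order :=
  (hasQExp_trans_evK ι N g P).ordInf_eq (fun h => hP ((cuspPolyK_eq_zero_iff ι N g P).mp h))

/-- Independence of the representative (cusps). -/
theorem ordInf_sub_eq_of_isRepK (g : SL(2, ℤ)) {f : FNK K N} (hf : f ≠ 0)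
    {P Q P' Q' : MvPolynomial (Dv N) K} (h : IsRepK N f P Q) (h' : IsRepK N f P' Q') :
    ordInf N (trans g (evK ι N P)) - ordInf N (trans g (evK ι N Q))
      = ordInf N (trans g (evK ι N P')) - ordInf N (trans g (evK ι N Q')) := by
  have hP := fmK_ne_zero_of_isRepK N h hf
  have hP' := fmK_ne_zero_of_isRepK N h' hf
  rw [ordInf_trans_evK ι N g P hP, ordInf_trans_evK ι N g Q h.1,
    ordInf_trans_evK ι N g P' hP', ordInf_trans_evK ι N g Q' h'.1]
  have hcross : cuspPolyK ι N g P * cuspPolyK ι N g Q'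
      = cuspPolyK ι N g P' * cuspPolyK ι N g Q := by
    have h1 := (cuspPolyK_eq_zero_iff ι N g _).2 (fmK_cross_eq_zero N h h')
    rwa [map_sub, map_mul, map_mul, sub_eq_zero] at h1
  have n1 : cuspPolyK ι N g P ≠ 0 := fun h0 => hP ((cuspPolyK_eq_zero_iff ι N g P).mp h0)
  have n2 : cuspPolyK ι N g Q' ≠ 0 := fun h0 => h'.1 ((cuspPolyK_eq_zero_iff ι N g Q').mp h0)
  have n3 : cuspPolyK ι N g P' ≠ 0 := fun h0 => hP' ((cuspPolyK_eq_zero_iff ι N g P').mp h0)
  have n4 : cuspPolyK ι N g Q ≠ 0 := fun h0 => h.1 ((cuspPolyK_eq_zero_iff ι N g Q).mp h0)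
  have e1 := HahnSeries.order_mul n1 n2
  have e2 := HahnSeries.order_mul n3 n4
  rw [hcross] at e1
  omega

/-- **The cusp valuation can be computed on any representative** (for `f ≠ 0`). -/
theorem valCuspK_eq_of_isRepK (g : SL(2, ℤ)) {f : FNK K N} (hf : f ≠ 0)
    {P Q : MvPolynomial (Dv N) K} (h : IsRepK N f P Q) :
    valCuspK ι N g f
      = ordInf N (trans g (evK ι N P)) - ordInf N (trans g (evK ι N Q)) := by
  have hex : ∃ P Q, IsRepK N f P Q := ⟨P, Q, h⟩
  unfold valCuspK
  rw [dif_pos hex]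
  exact ordInf_sub_eq_of_isRepK ι N g hf hex.choose_spec.choose_spec h

/-! ### The meromorphic function -/

/-- A nonzero holomorphic function on `ℍ` is nonzero off a discrete subset of `U`. -/
theorem eventually_codiscreteWithin_ne_zero {G : ℍ → ℂ} (hG : MDiff G) (h0 : G ≠ 0) :
    ∀ᶠ z in Filter.codiscreteWithin U, G (ofComplex z) ≠ 0 := by
  obtain ⟨τ, hτ⟩ : ∃ τ : ℍ, G τ ≠ 0 := by
    by_contra hcon
    push Not at hcon
    exact h0 (funext hcon)
  have han : AnalyticOnNhd ℂ (G ∘ ofComplex) U :=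
    (UpperHalfPlane.mdifferentiable_iff.mp hG).analyticOnNhd isOpen_upperHalfPlaneSet
  have hconn : IsConnected U :=
    ⟨⟨Complex.I, by simp [U]⟩, (convex_halfSpace_im_gt 0).isPreconnected⟩
  have hmem := han.preimage_zero_mem_codiscreteWithin (x := (τ : ℂ)) (by simpa using hτ) τ.2 hconn
  filter_upwards [hmem] with z hz
  simpa using hz

/-- **`merK` can be computed on any representative**, off a discrete set. -/
theorem merK_eventuallyEq_of_isRepK {f : FNK K N} {P Q : MvPolynomial (Dv N) K}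
    (h : IsRepK N f P Q) :
    merK ι N f =ᶠ[Filter.codiscreteWithin U]
      fun z => evK ι N P (ofComplex z) / evK ι N Q (ofComplex z) := by
  have hex : ∃ P Q, IsRepK N f P Q := ⟨P, Q, h⟩
  have hmer : merK ι N f = fun z => evK ι N hex.choose (ofComplex z)
      / evK ι N hex.choose_spec.choose (ofComplex z) := by
    unfold merK
    rw [dif_pos hex]
  have h₀ : IsRepK N f hex.choose hex.choose_spec.choose := hex.choose_spec.choose_spec
  have hcross := evK_mul_eq_of_isRepK ι N h₀ h
  have hQ := eventually_codiscreteWithin_ne_zero (mdiff_evK ι N Q) ((evK_ne_zero_iff ι N Q).2 h.1)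
  have hQ₀ := eventually_codiscreteWithin_ne_zero (mdiff_evK ι N hex.choose_spec.choose)
    ((evK_ne_zero_iff ι N _).2 h₀.1)
  filter_upwards [hQ, hQ₀] with z hz hz₀
  rw [hmer]
  show evK ι N hex.choose (ofComplex z) / evK ι N hex.choose_spec.choose (ofComplex z)
    = evK ι N P (ofComplex z) / evK ι N Q (ofComplex z)
  rw [div_eq_div_iff hz₀ hz]
  exact congrFun hcross (ofComplex z)

end Generic

end Bc

open Bc

/-! ## Part 3: base change `F_K → F_ℂ` of the dictionary -/

section BC

variable {K : Type} [Field K] [Algebra ℚ K] (ι : K →+* ℂ) (N : ℕ) [NeZero N]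

/-- **Base change** `F_K → F_ℂ` along `ι : K →+* ℂ` (coefficientwise on Laurent series). -/
def bcC : FNK K N →+* FNK ℂ N := bcK ι (modularFunctionFieldFull N)

theorem coe_bcC (f : FNK K N) :
    ((bcC ι N f : FNK ℂ N) : LaurentSeries ℂ) = coeffMap ι (f : LaurentSeries K) := rfl

theorem bcC_injective : Function.Injective (bcC ι N) := (bcC ι N).injective

theorem bcC_algebraMap (c : K) :
    bcC ι N (algebraMap K (FNK K N) c) = algebraMap ℂ (FNK ℂ N) (ι c) :=
  bcK_algebraMap ι _ c

theorem bcC_jFormalK (d : Dv N) : bcC ι N (jFormalK K N d) = jFormalK ℂ N d :=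
  Subtype.ext (coeffMap_coeffEmb_of_ringHom ι _)

theorem coeffMap_aeval_jLK (P : MvPolynomial (Dv N) K) :
    coeffMap ι (MvPolynomial.aeval (jLK K N) P)
      = MvPolynomial.aeval (jLK ℂ N) (MvPolynomial.map ι P) := by
  induction P using MvPolynomial.induction_on with
  | C c =>
    rw [MvPolynomial.map_C, MvPolynomial.aeval_C, MvPolynomial.aeval_C,
      coeffMap_algebraMap_of_ringHom]
  | add p q hp hq =>
    rw [map_add, map_add, map_add, map_add, hp, hq]
  | mul_X p i hp =>
    rw [map_mul, map_mul, map_mul, map_mul, hp, MvPolynomial.map_X, MvPolynomial.aeval_X,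
      MvPolynomial.aeval_X]
    congr 1
    exact coeffMap_coeffEmb_of_ringHom ι _

theorem bcC_fmK (P : MvPolynomial (Dv N) K) :
    bcC ι N (fmK K N P) = fmK ℂ N (MvPolynomial.map ι P) := by
  apply Subtype.ext
  rw [coe_bcC, coe_fmK, coe_fmK, coeffMap_aeval_jLK]

theorem isRepK_bcC {f : FNK K N} {P Q : MvPolynomial (Dv N) K} (h : IsRepK N f P Q) :
    IsRepK N (bcC ι N f) (MvPolynomial.map ι P) (MvPolynomial.map ι Q) := by
  refine ⟨?_, ?_⟩
  · rw [← bcC_fmK]
    exact (map_ne_zero (bcC ι N)).mpr h.1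
  · rw [← bcC_fmK, ← bcC_fmK, ← map_div₀, ← h.2]

/-- Base change preserves the point valuations. -/
theorem valPtK_bcC (τ : ℍ) {f : FNK K N} (hf : f ≠ 0) :
    valPtK (RingHom.id ℂ) N τ (bcC ι N f) = valPtK ι N τ f := by
  obtain ⟨P, Q, h⟩ := exists_isRepK N f
  rw [valPtK_eq_of_isRepK (RingHom.id ℂ) N τ ((map_ne_zero (bcC ι N)).mpr hf) (isRepK_bcC ι N h),
    valPtK_eq_of_isRepK ι N τ hf h, evK_map, evK_map]

/-- Base change preserves the cusp valuations. -/
theorem valCuspK_bcC (g : SL(2, ℤ)) {f : FNK K N} (hf : f ≠ 0) :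
    valCuspK (RingHom.id ℂ) N g (bcC ι N f) = valCuspK ι N g f := by
  obtain ⟨P, Q, h⟩ := exists_isRepK N f
  rw [valCuspK_eq_of_isRepK (RingHom.id ℂ) N g ((map_ne_zero (bcC ι N)).mpr hf)
    (isRepK_bcC ι N h), valCuspK_eq_of_isRepK ι N g hf h, evK_map, evK_map]

/-- Base change preserves the meromorphic function (off a discrete set). -/
theorem merK_bcC (f : FNK K N) :
    merK (RingHom.id ℂ) N (bcC ι N f) =ᶠ[Filter.codiscreteWithin U] merK ι N f := by
  obtain ⟨P, Q, h⟩ := exists_isRepK N f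
  have h1 := merK_eventuallyEq_of_isRepK (RingHom.id ℂ) N (isRepK_bcC ι N h)
  have h2 := merK_eventuallyEq_of_isRepK ι N h
  simp only [evK_map] at h1
  exact h1.trans h2.symm

/-- The image of the base change: elements with all coefficients in `ι(K)`. -/
theorem mem_range_bcC (x : FNK ℂ N)
    (h : ∀ k : ℤ, (x : LaurentSeries ℂ).coeff k ∈ Set.range ι) : x ∈ Set.range (bcC ι N) :=
  mem_range_bcK ι _ x h

end BC

/-! ### The case `K = ℚ̄`, `ι = iotaK` -/

section Qbar

variable (N : ℕ) [NeZero N]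

/-- **Base change** `F_ℚ̄ → F_ℂ`. -/
def bc : FNK KQ N →+* FNK ℂ N := bcC iotaK N

theorem coe_bc (f : FNK KQ N) :
    ((bc N f : FNK ℂ N) : LaurentSeries ℂ) = coeffMap iotaK (f : LaurentSeries KQ) := rfl

theorem bc_injective : Function.Injective (bc N) := (bc N).injective

theorem bc_algebraMap (c : KQ) :
    bc N (algebraMap KQ (FNK KQ N) c) = algebraMap ℂ (FNK ℂ N) (iotaK c) :=
  bcC_algebraMap iotaK N c

theorem bc_jFormalK (d : Dv N) : bc N (jFormalK KQ N d) = jFormalK ℂ N d :=
  bcC_jFormalK iotaK N d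

theorem bc_jBarK : bc N (jBarK KQ N) = jBarK ℂ N := bcC_jFormalK iotaK N _

theorem bc_fm (P : MvPolynomial (Dv N) KQ) :
    bc N (fmK KQ N P) = fmK ℂ N (MvPolynomial.map iotaK P) :=
  bcC_fmK iotaK N P

theorem isRepK_bc {f : FNK KQ N} {P Q : MvPolynomial (Dv N) KQ} (h : IsRepK N f P Q) :
    IsRepK N (bc N f) (MvPolynomial.map iotaK P) (MvPolynomial.map iotaK Q) :=
  isRepK_bcC iotaK N h

theorem valPtK_bc (τ : ℍ) {f : FNK KQ N} (hf : f ≠ 0) :
    valPtK (RingHom.id ℂ) N τ (bc N f) = valPtK iotaK N τ f :=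
  valPtK_bcC iotaK N τ hf

theorem valCuspK_bc (g : SL(2, ℤ)) {f : FNK KQ N} (hf : f ≠ 0) :
    valCuspK (RingHom.id ℂ) N g (bc N f) = valCuspK iotaK N g f :=
  valCuspK_bcC iotaK N g hf

theorem merK_bc (f : FNK KQ N) :
    merK (RingHom.id ℂ) N (bc N f) =ᶠ[Filter.codiscreteWithin U] merK iotaK N f :=
  merK_bcC iotaK N f

/-- An element of `F_ℂ` with all Laurent coefficients in `ι(ℚ̄)` is a base change. -/
theorem mem_range_bc (x : FNK ℂ N)
    (h : ∀ k : ℤ, (x : LaurentSeries ℂ).coeff k ∈ Set.range iotaK) : x ∈ Set.range (bc N) :=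
  mem_range_bcC iotaK N x h

/-- **Existence of the base change** (the form of task JAC-DICT-BC). -/
theorem exists_bc (f : FNK KQ N) :
    ∃ f' : FNK ℂ N,
      ((f' : FNK ℂ N) : LaurentSeries ℂ) = coeffMap iotaK ((f : FNK KQ N) : LaurentSeries KQ) ∧
      merK (RingHom.id ℂ) N f' =ᶠ[Filter.codiscreteWithin U] merK iotaK N f :=
  ⟨bc N f, rfl, merK_bc N f⟩

end Qbar


end Fermat.Agent.ESJ.Dict
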