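import Mathlib
import Fermat.Agent.ESJ.Dict.Defs
import Fermat.Agent.S24.DictFull
import Fermat.Agent.S24C.DictFull

/-!
# JAC-DICT: the two instances of the dictionary

* `isDict_Qbar N : IsDict S24.iotaK N` (coefficient field `ℚ̄`);
* `isDict_C N : IsDict (RingHom.id ℂ) N` (coefficient field `ℂ`).
-/

set_option autoImplicit false

noncomputable section

namespace Fermat.Agent.ESJ.Dict

/-- The dictionary over `ℚ̄`. -/
theorem isDict_Qbar (N : ℕ) [NeZero N] : IsDict Fermat.Agent.S24.iotaK N :=
  Fermat.Agent.S24.DictInst.isDict N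

/-- The dictionary over `ℂ`. -/
theorem isDict_C (N : ℕ) [NeZero N] : IsDict (RingHom.id ℂ) N :=
  Fermat.Agent.S24C.DictInst.isDict N

end Fermat.Agent.ESJ.Dict

end
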